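import Fermat.Agent.S15.H242.NodalCount

/-!
# S12 / QUOT-Q3 (helper651), part 1: the multiplicative parametrisation of a split nodal cubic

Let `W` be a Weierstrass cubic over a field `k` with a singular point `(x₀, y₀)` whose two tangent
slopes `α ≠ β` lie in `k` (`SplitNode W`).  Then

  `u(P) = ((y - y₀) - α (x - x₀)) / ((y - y₀) - β (x - x₀))`,  `u(0) = 1`,

is an injective homomorphism from the group `W.Point` of nonsingular points to `kˣ`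
(`nodeU_add`, `nodeU_ne_zero`, `nodeU_eq_one_iff`), and
`x(P) = x₀ + (α - β)² u / (1 - u)²` (`x_eq_of_nodeU`).

Mathlib + the slope parametrisation `exists_param` of `S15.H242.NodalCount`.
-/

set_option autoImplicit false

namespace Fermat.Agent.S12.H651

open WeierstrassCurve WeierstrassCurve.Affine
open Fermat.Agent.S15.H242 (nodeQuad exists_param)

variable {k : Type*} [Field k]

/-- A split node of a Weierstrass cubic: the singular point `(x₀, y₀)` and the two distinct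
tangent slopes `α`, `β` at it. -/
structure SplitNode (W : Affine k) where
  /-- `x`-coordinate of the node -/
  x₀ : k
  /-- `y`-coordinate of the node -/
  y₀ : k
  /-- first tangent slope -/
  α : k
  /-- second tangent slope -/
  β : k
  hF : W.Equation x₀ y₀
  hFx : W.a₁ * y₀ - (3 * x₀ ^ 2 + 2 * W.a₂ * x₀ + W.a₄) = 0
  hFy : 2 * y₀ + W.a₁ * x₀ + W.a₃ = 0
  hsum : α + β = -W.a₁
  hprod : α * β = -(3 * x₀ + W.a₂)
  hne : α ≠ β

namespace SplitNode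

variable {W : Affine k} (N : SplitNode W)

lemma a₁_eq : W.a₁ = -(N.α + N.β) := by rw [N.hsum]; ring

lemma a₂_eq : W.a₂ = -(N.α * N.β) - 3 * N.x₀ := by rw [N.hprod]; ring

lemma a₃_eq : W.a₃ = -2 * N.y₀ + (N.α + N.β) * N.x₀ := by
  have h := N.hFy
  rw [N.a₁_eq] at h
  linear_combination h

lemma a₄_eq : W.a₄ = -(N.α + N.β) * N.y₀ + 3 * N.x₀ ^ 2 + 2 * (N.α * N.β) * N.x₀ := by
  have h := N.hFx
  rw [N.a₁_eq, N.a₂_eq] at h
  linear_combination -h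

lemma nodeQuad_eq (t : k) : nodeQuad W N.x₀ t = (t - N.α) * (t - N.β) := by
  unfold nodeQuad
  rw [N.a₁_eq, N.a₂_eq]
  ring

/-- `c₄ = (α - β)⁴`. -/
lemma c₄_eq : W.c₄ = ((N.α - N.β) ^ 2) ^ 2 := by
  rw [Fermat.Agent.S15.H242.c₄_eq_of_singular W N.hFx N.hFy]
  simp only [WeierstrassCurve.b₂]
  rw [N.a₁_eq, N.a₂_eq]
  ring

/-- The slope parametrisation of the nonsingular points. -/
lemma param {x y : k} (h : W.Nonsingular x y) :
    ∃ t : k, t ≠ N.α ∧ t ≠ N.β ∧ x = N.x₀ + (t - N.α) * (t - N.β) ∧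
      y = N.y₀ + t * ((t - N.α) * (t - N.β)) := by
  obtain ⟨t, ht, hx, hy⟩ := exists_param N.hF N.hFx N.hFy h
  rw [N.nodeQuad_eq] at ht hx hy
  refine ⟨t, ?_, ?_, hx, hy⟩
  · rintro rfl
    exact ht (by ring)
  · rintro rfl
    exact ht (by ring)

/-- Numerator of `u`. -/
def uNum (x y : k) : k := (y - N.y₀) - N.α * (x - N.x₀)

/-- Denominator of `u`. -/
def uDen (x y : k) : k := (y - N.y₀) - N.β * (x - N.x₀)

lemma uNum_param (t : k) :
    N.uNum (N.x₀ + (t - N.α) * (t - N.β)) (N.y₀ + t * ((t - N.α) * (t - N.β))) =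
      (t - N.α) ^ 2 * (t - N.β) := by
  unfold uNum; ring

lemma uDen_param (t : k) :
    N.uDen (N.x₀ + (t - N.α) * (t - N.β)) (N.y₀ + t * ((t - N.α) * (t - N.β))) =
      (t - N.α) * (t - N.β) ^ 2 := by
  unfold uDen; ring

lemma uNum_ne_zero {x y : k} (h : W.Nonsingular x y) : N.uNum x y ≠ 0 := by
  obtain ⟨t, hα, hβ, rfl, rfl⟩ := N.param h
  rw [N.uNum_param]
  exact mul_ne_zero (pow_ne_zero _ (sub_ne_zero.mpr hα)) (sub_ne_zero.mpr hβ)

lemma uDen_ne_zero {x y : k} (h : W.Nonsingular x y) : N.uDen x y ≠ 0 := by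
  obtain ⟨t, hα, hβ, rfl, rfl⟩ := N.param h
  rw [N.uDen_param]
  exact mul_ne_zero (sub_ne_zero.mpr hα) (pow_ne_zero _ (sub_ne_zero.mpr hβ))

/-- The multiplicative coordinate of a point of the nodal cubic. -/
def nodeU : W.Point → k
  | .zero => 1
  | .some x y _ => N.uNum x y / N.uDen x y

@[simp] lemma nodeU_zero : N.nodeU (0 : W.Point) = 1 := rfl

lemma nodeU_some {x y : k} (h : W.Nonsingular x y) :
    N.nodeU (Point.some x y h) = N.uNum x y / N.uDen x y := rfl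

lemma nodeU_ne_zero (P : W.Point) : N.nodeU P ≠ 0 := by
  rcases P with _ | ⟨x, y, h⟩
  · exact one_ne_zero
  · rw [nodeU_some]
    exact div_ne_zero (N.uNum_ne_zero h) (N.uDen_ne_zero h)

lemma nodeU_some_ne_one {x y : k} (h : W.Nonsingular x y) : N.nodeU (Point.some x y h) ≠ 1 := by
  obtain ⟨t, hα, hβ, rfl, rfl⟩ := N.param h
  rw [nodeU_some, N.uNum_param, N.uDen_param]
  intro hu
  have hα' := sub_ne_zero.mpr hα
  have hβ' := sub_ne_zero.mpr hβ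
  rw [div_eq_one_iff_eq (mul_ne_zero hα' (pow_ne_zero _ hβ'))] at hu
  have h1 : (t - N.α) * (t - N.β) * (N.β - N.α) = 0 := by linear_combination hu
  rcases mul_eq_zero.mp h1 with h2 | h2
  · exact (mul_ne_zero hα' hβ') h2
  · exact N.hne (sub_eq_zero.mp h2).symm

lemma nodeU_eq_one_iff (P : W.Point) : N.nodeU P = 1 ↔ P = 0 := by
  rcases P with _ | ⟨x, y, h⟩
  · exact ⟨fun _ => rfl, fun _ => rfl⟩
  · exact ⟨fun hu => absurd hu (N.nodeU_some_ne_one h), fun h0 => absurd h0 (Point.some_ne_zero _)⟩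

/-- The `x`-coordinate in terms of `u`. -/
lemma x_eq_of_nodeU {x y : k} (h : W.Nonsingular x y) :
    x = N.x₀ + (N.α - N.β) ^ 2 * N.nodeU (Point.some x y h) /
      (1 - N.nodeU (Point.some x y h)) ^ 2 := by
  have hne := N.nodeU_some_ne_one h
  obtain ⟨t, hα, hβ, rfl, rfl⟩ := N.param h
  rw [nodeU_some, N.uNum_param, N.uDen_param] at hne ⊢
  have hα' := sub_ne_zero.mpr hα
  have hβ' := sub_ne_zero.mpr hβ
  have hαβ : N.α - N.β ≠ 0 := sub_ne_zero.mpr N.hne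
  have hu : (t - N.α) ^ 2 * (t - N.β) / ((t - N.α) * (t - N.β) ^ 2) = (t - N.α) / (t - N.β) := by
    field_simp
  rw [hu]
  have h1 : 1 - (t - N.α) / (t - N.β) = (N.α - N.β) / (t - N.β) := by
    field_simp; ring
  rw [h1]
  field_simp

lemma uNum_negY (x y : k) : N.uNum x (W.negY x y) = -N.uDen x y := by
  unfold uNum uDen
  simp only [Affine.negY]
  rw [N.a₁_eq, N.a₃_eq]
  ring

lemma uDen_negY (x y : k) : N.uDen x (W.negY x y) = -N.uNum x y := by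
  unfold uNum uDen
  simp only [Affine.negY]
  rw [N.a₁_eq, N.a₃_eq]
  ring

/-- The key identity behind the multiplicativity of `u`: `L` is the slope of the chord (or
tangent) through the points with slope parameters `t₁`, `t₂`. -/
lemma key_add (t₁ t₂ L : k) (hs : t₁ + t₂ - N.α - N.β ≠ 0)
    (hL : L * (t₁ + t₂ - N.α - N.β) =
      t₁ ^ 2 + t₁ * t₂ + t₂ ^ 2 - (N.α + N.β) * (t₁ + t₂) + N.α * N.β) :
    N.uNum
        (W.addX (N.x₀ + (t₁ - N.α) * (t₁ - N.β)) (N.x₀ + (t₂ - N.α) * (t₂ - N.β)) L)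
        (W.addY (N.x₀ + (t₁ - N.α) * (t₁ - N.β)) (N.x₀ + (t₂ - N.α) * (t₂ - N.β))
          (N.y₀ + t₁ * ((t₁ - N.α) * (t₁ - N.β))) L) *
      ((t₁ - N.β) * (t₂ - N.β)) =
    N.uDen
        (W.addX (N.x₀ + (t₁ - N.α) * (t₁ - N.β)) (N.x₀ + (t₂ - N.α) * (t₂ - N.β)) L)
        (W.addY (N.x₀ + (t₁ - N.α) * (t₁ - N.β)) (N.x₀ + (t₂ - N.α) * (t₂ - N.β))
          (N.y₀ + t₁ * ((t₁ - N.α) * (t₁ - N.β))) L) *
      ((t₁ - N.α) * (t₂ - N.α)) := by
  have hLe : L = (t₁ ^ 2 + t₁ * t₂ + t₂ ^ 2 - (N.α + N.β) * (t₁ + t₂) + N.α * N.β) /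
      (t₁ + t₂ - N.α - N.β) := by
    rw [eq_div_iff hs]; exact hL
  unfold uNum uDen
  simp only [Affine.addY, Affine.negAddY, Affine.negY, Affine.addX]
  rw [N.a₁_eq, N.a₂_eq, N.a₃_eq, hLe]
  field_simp
  ring

/-- The slope of the chord or tangent, in terms of the slope parameters. -/
lemma slope_param [DecidableEq k] {t₁ t₂ : k} (h₁α : t₁ ≠ N.α) (h₁β : t₁ ≠ N.β)
    (h₂α : t₂ ≠ N.α) (h₂β : t₂ ≠ N.β)
    (hxy : ¬(N.x₀ + (t₁ - N.α) * (t₁ - N.β) = N.x₀ + (t₂ - N.α) * (t₂ - N.β) ∧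
      N.y₀ + t₁ * ((t₁ - N.α) * (t₁ - N.β)) =
        W.negY (N.x₀ + (t₂ - N.α) * (t₂ - N.β)) (N.y₀ + t₂ * ((t₂ - N.α) * (t₂ - N.β))))) :
    t₁ + t₂ - N.α - N.β ≠ 0 ∧
    W.slope (N.x₀ + (t₁ - N.α) * (t₁ - N.β)) (N.x₀ + (t₂ - N.α) * (t₂ - N.β))
        (N.y₀ + t₁ * ((t₁ - N.α) * (t₁ - N.β))) (N.y₀ + t₂ * ((t₂ - N.α) * (t₂ - N.β))) *
      (t₁ + t₂ - N.α - N.β) =
      t₁ ^ 2 + t₁ * t₂ + t₂ ^ 2 - (N.α + N.β) * (t₁ + t₂) + N.α * N.β := by
  have h₁α' := sub_ne_zero.mpr h₁α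
  have h₁β' := sub_ne_zero.mpr h₁β
  have h₂α' := sub_ne_zero.mpr h₂α
  have h₂β' := sub_ne_zero.mpr h₂β
  by_cases hx : N.x₀ + (t₁ - N.α) * (t₁ - N.β) = N.x₀ + (t₂ - N.α) * (t₂ - N.β)
  · -- tangent case
    have hy : N.y₀ + t₁ * ((t₁ - N.α) * (t₁ - N.β)) ≠
        W.negY (N.x₀ + (t₂ - N.α) * (t₂ - N.β)) (N.y₀ + t₂ * ((t₂ - N.α) * (t₂ - N.β))) :=
      fun hy => hxy ⟨hx, hy⟩
    have hg : (t₁ - N.α) * (t₁ - N.β) = (t₂ - N.α) * (t₂ - N.β) := add_left_cancel hx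
    -- `t₁ = t₂`
    have hfac : (t₁ - t₂) * (t₁ + t₂ - N.α - N.β) = 0 := by linear_combination hg
    have hs : t₁ + t₂ - N.α - N.β ≠ 0 := by
      intro hs
      apply hy
      simp only [Affine.negY]
      rw [N.a₁_eq, N.a₃_eq]
      linear_combination t₁ * hg + (t₂ - N.α) * (t₂ - N.β) * hs
    have ht : t₁ = t₂ := by
      rcases mul_eq_zero.mp hfac with h | h
      · exact sub_eq_zero.mp h
      · exact absurd h hs
    subst ht
    refine ⟨hs, ?_⟩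
    rw [Affine.slope_of_Y_ne rfl hy]
    have e2 : t₁ + t₁ - N.α - N.β = 2 * t₁ - N.α - N.β := by ring
    rw [e2] at hs ⊢
    have hden : N.y₀ + t₁ * ((t₁ - N.α) * (t₁ - N.β)) -
        W.negY (N.x₀ + (t₁ - N.α) * (t₁ - N.β)) (N.y₀ + t₁ * ((t₁ - N.α) * (t₁ - N.β))) =
        (t₁ - N.α) * (t₁ - N.β) * (2 * t₁ - N.α - N.β) := by
      simp only [Affine.negY]
      rw [N.a₁_eq, N.a₃_eq]
      ring
    have hnum : 3 * (N.x₀ + (t₁ - N.α) * (t₁ - N.β)) ^ 2 +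
        2 * W.a₂ * (N.x₀ + (t₁ - N.α) * (t₁ - N.β)) + W.a₄ -
        W.a₁ * (N.y₀ + t₁ * ((t₁ - N.α) * (t₁ - N.β))) =
        (t₁ - N.α) * (t₁ - N.β) *
          (t₁ ^ 2 + t₁ * t₁ + t₁ ^ 2 - (N.α + N.β) * (t₁ + t₁) + N.α * N.β) := by
      rw [N.a₁_eq, N.a₂_eq, N.a₄_eq]
      ring
    rw [hden, hnum, mul_div_mul_left _ _ (mul_ne_zero h₁α' h₁β'), div_mul_cancel₀ _ hs]
  · -- chord case
    have hg : (t₁ - N.α) * (t₁ - N.β) - (t₂ - N.α) * (t₂ - N.β) ≠ 0 := by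
      intro h
      exact hx (by linear_combination h)
    have hfac : (t₁ - N.α) * (t₁ - N.β) - (t₂ - N.α) * (t₂ - N.β) =
        (t₁ - t₂) * (t₁ + t₂ - N.α - N.β) := by ring
    rw [hfac] at hg
    have ht : t₁ - t₂ ≠ 0 := left_ne_zero_of_mul hg
    have hs : t₁ + t₂ - N.α - N.β ≠ 0 := right_ne_zero_of_mul hg
    refine ⟨hs, ?_⟩
    rw [Affine.slope_of_X_ne hx]
    have hden : N.x₀ + (t₁ - N.α) * (t₁ - N.β) - (N.x₀ + (t₂ - N.α) * (t₂ - N.β)) =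
        (t₁ - t₂) * (t₁ + t₂ - N.α - N.β) := by ring
    rw [hden]
    field_simp
    ring

/-- **`u` is multiplicative.** -/
theorem nodeU_add [DecidableEq k] (P Q : W.Point) :
    N.nodeU (P + Q) = N.nodeU P * N.nodeU Q := by
  rcases P with _ | ⟨x₁, y₁, h₁⟩
  · change N.nodeU (0 + Q) = N.nodeU 0 * N.nodeU Q
    rw [zero_add, nodeU_zero, one_mul]
  rcases Q with _ | ⟨x₂, y₂, h₂⟩
  · change N.nodeU (_ + 0) = N.nodeU _ * N.nodeU 0
    rw [add_zero, nodeU_zero, mul_one]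
  by_cases hxy : x₁ = x₂ ∧ y₁ = W.negY x₂ y₂
  · rw [Point.add_of_Y_eq hxy.1 hxy.2, nodeU_zero, nodeU_some, nodeU_some]
    obtain ⟨hx, hy⟩ := hxy
    subst hx hy
    rw [N.uNum_negY, N.uDen_negY]
    have hn := N.uNum_ne_zero h₂
    have hd := N.uDen_ne_zero h₂
    field_simp
  · rw [Point.add_some hxy, nodeU_some, nodeU_some, nodeU_some]
    have h₃ := Affine.nonsingular_add h₁ h₂ hxy
    have hd₃ := N.uDen_ne_zero h₃
    obtain ⟨t₁, h₁α, h₁β, rfl, rfl⟩ := N.param h₁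
    obtain ⟨t₂, h₂α, h₂β, rfl, rfl⟩ := N.param h₂
    obtain ⟨hs, hL⟩ := N.slope_param h₁α h₁β h₂α h₂β hxy
    have hkey := N.key_add t₁ t₂ _ hs hL
    rw [N.uNum_param, N.uDen_param, N.uNum_param, N.uDen_param]
    have h₁α' := sub_ne_zero.mpr h₁α
    have h₁β' := sub_ne_zero.mpr h₁β
    have h₂α' := sub_ne_zero.mpr h₂α
    have h₂β' := sub_ne_zero.mpr h₂β
    rw [div_eq_iff hd₃]
    have e : (t₁ - N.α) ^ 2 * (t₁ - N.β) / ((t₁ - N.α) * (t₁ - N.β) ^ 2) *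
        ((t₂ - N.α) ^ 2 * (t₂ - N.β) / ((t₂ - N.α) * (t₂ - N.β) ^ 2)) =
        ((t₁ - N.α) * (t₂ - N.α)) / ((t₁ - N.β) * (t₂ - N.β)) := by
      field_simp
    rw [e, div_mul_eq_mul_div, eq_div_iff (mul_ne_zero h₁β' h₂β')]
    linear_combination hkey

theorem nodeU_nsmul [DecidableEq k] (n : ℕ) (P : W.Point) :
    N.nodeU (n • P) = N.nodeU P ^ n := by
  induction n with
  | zero => simp
  | succ n ih => rw [succ_nsmul, nodeU_add, ih, pow_succ]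

theorem nodeU_injective [DecidableEq k] : Function.Injective N.nodeU := by
  intro P Q h
  have h1 : N.nodeU (P - Q) = 1 := by
    have h2 : N.nodeU (P - Q) * N.nodeU Q = N.nodeU P := by
      rw [← nodeU_add, sub_add_cancel]
    rw [h] at h2
    exact mul_right_cancel₀ (N.nodeU_ne_zero Q) (by rw [h2, one_mul])
  exact sub_eq_zero.mp ((N.nodeU_eq_one_iff _).mp h1)

end SplitNode

end Fermat.Agent.S12.H651
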