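import Mathlib

/-!
# S12 / QUOT-Q3 (helper651), part 2: sums over the nontrivial `p`-th roots of unity

For a primitive `p`-th root of unity `ζ` in a field in which `2, 3, 5` are invertible and
`s_k = ζ ^ k / (1 - ζ ^ k) ^ 2`:

  `120 * ∑_{k = 1}^{p - 1} (6 s_k ^ 2 + s_k) = p ^ 4 - 1`        (`root_sum`).

Proof: `s_k = v_k ^ 2 + v_k` with `v_k = 1 / (ζ ^ k - 1)`; the `v_k` are the roots of
`(X + 1) ^ p - X ^ p = p X ^ (p-1) + C(p,2) X ^ (p-2) + …` (`add_one_pow_sub_pow_eq`), so their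
elementary symmetric functions are binomial coefficients (`esymm_vRoot`), and Newton's identities
(`newton_four`, from Mathlib's `MvPolynomial.psum_eq_mul_esymm_sub_sum`) give the power sums.

This is the computation behind "Vélu's quotient of a nodal cubic by `μ_p` multiplies `c₄` by `p⁴`".
Mathlib only.
-/

set_option autoImplicit false

namespace Fermat.Agent.S12.H651

open Finset Polynomial

section Newton

variable {κ : Type*} [CommRing κ]

/-- Newton's identities for the first four power sums of a finite family. -/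
theorem newton_four {ι : Type*} [Fintype ι] (f : ι → κ) :
    (∑ i, f i ^ 1 = (univ.val.map f).esymm 1) ∧
    (∑ i, f i ^ 2 = (univ.val.map f).esymm 1 * ∑ i, f i ^ 1 - 2 * (univ.val.map f).esymm 2) ∧
    (∑ i, f i ^ 3 = (univ.val.map f).esymm 1 * ∑ i, f i ^ 2
        - (univ.val.map f).esymm 2 * ∑ i, f i ^ 1 + 3 * (univ.val.map f).esymm 3) ∧
    (∑ i, f i ^ 4 = (univ.val.map f).esymm 1 * ∑ i, f i ^ 3
        - (univ.val.map f).esymm 2 * ∑ i, f i ^ 2 + (univ.val.map f).esymm 3 * ∑ i, f i ^ 1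
        - 4 * (univ.val.map f).esymm 4) := by
  classical
  have key : ∀ k : ℕ, 0 < k → ∑ i, f i ^ k =
      (-1) ^ (k + 1) * k * (univ.val.map f).esymm k -
      ∑ a ∈ antidiagonal k with a.1 ∈ Set.Ioo 0 k,
        (-1) ^ a.1 * (univ.val.map f).esymm a.1 * ∑ i, f i ^ a.2 := by
    intro k hk
    have h := congrArg (MvPolynomial.aeval (R := ℤ) f)
      (MvPolynomial.psum_eq_mul_esymm_sub_sum ι ℤ k hk)
    simp only [MvPolynomial.psum, map_sum, map_pow, MvPolynomial.aeval_X, map_sub, map_mul,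
      map_neg, map_one, map_natCast, MvPolynomial.aeval_esymm_eq_multiset_esymm] at h
    exact h
  refine ⟨?_, ?_, ?_, ?_⟩
  · rw [key 1 one_pos]
    simp [Finset.sum_filter, Finset.Nat.antidiagonal_succ]
  · rw [key 2 two_pos]
    simp [Finset.sum_filter, Finset.Nat.antidiagonal_succ]
    ring
  · rw [key 3 (by norm_num)]
    simp [Finset.sum_filter, Finset.Nat.antidiagonal_succ]
    ring
  · rw [key 4 (by norm_num)]
    simp [Finset.sum_filter, Finset.Nat.antidiagonal_succ]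
    ring

end Newton


section RootPoly

variable {κ : Type*} [Field κ]

/-- `v_k = 1 / (ζ ^ k - 1)`. -/
noncomputable def vRoot (ζ : κ) (k : ℕ) : κ := (ζ ^ k - 1)⁻¹

lemma vRoot_add_one {ζ : κ} {k : ℕ} (hk : ζ ^ k ≠ 1) : vRoot ζ k + 1 = ζ ^ k * vRoot ζ k := by
  unfold vRoot
  have h : ζ ^ k - 1 ≠ 0 := sub_ne_zero.mpr hk
  field_simp
  ring

lemma vRoot_add_one_pow {ζ : κ} {p k : ℕ} (hζ : ζ ^ p = 1) (hk : ζ ^ k ≠ 1) :
    (vRoot ζ k + 1) ^ p = vRoot ζ k ^ p := by
  rw [vRoot_add_one hk, mul_pow, ← pow_mul, mul_comm k p, pow_mul, hζ, one_pow, one_mul]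

/-- `ζ ^ k / (1 - ζ ^ k)² = v_k² + v_k`. -/
lemma s_eq_vRoot {ζ : κ} {k : ℕ} (hk : ζ ^ k ≠ 1) :
    ζ ^ k / (1 - ζ ^ k) ^ 2 = vRoot ζ k ^ 2 + vRoot ζ k := by
  unfold vRoot
  have h : ζ ^ k - 1 ≠ 0 := sub_ne_zero.mpr hk
  have h' : 1 - ζ ^ k ≠ 0 := sub_ne_zero.mpr (Ne.symm hk)
  field_simp
  ring

variable {ζ : κ} {p : ℕ}

lemma pow_ne_one_of_lt (hζ : IsPrimitiveRoot ζ p) {k : ℕ} (h0 : 0 < k) (hk : k < p) :
    ζ ^ k ≠ 1 := hζ.pow_ne_one_of_pos_of_lt (Nat.pos_iff_ne_zero.mp h0) hk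

lemma vRoot_injOn (hζ : IsPrimitiveRoot ζ p) :
    Function.Injective fun i : Fin (p - 1) => vRoot ζ (i + 1) := by
  intro i j h
  simp only [vRoot] at h
  have h1 : ζ ^ ((i : ℕ) + 1) = ζ ^ ((j : ℕ) + 1) := by
    have := inv_injective h
    exact sub_left_injective this
  have hi : (i : ℕ) + 1 < p := by have := i.2; omega
  have hj : (j : ℕ) + 1 < p := by have := j.2; omega
  have := hζ.pow_inj hi hj h1
  exact Fin.ext (by omega)

/-- The polynomial `(X + 1) ^ p - X ^ p` has the roots `v_k`, `1 ≤ k ≤ p - 1`. -/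
theorem add_one_pow_sub_pow_eq (hp : 2 ≤ p) (hζ : IsPrimitiveRoot ζ p) :
    ((X : κ[X]) + 1) ^ p - X ^ p = C (p : κ) * ∏ i : Fin (p - 1), (X - C (vRoot ζ (i + 1))) := by
  classical
  set G : κ[X] := ∏ i : Fin (p - 1), (X - C (vRoot ζ (i + 1))) with hG
  have hGmonic : G.Monic := monic_prod_of_monic _ _ fun i _ => monic_X_sub_C _
  have hGdeg : G.natDegree = p - 1 := by
    rw [hG, natDegree_prod_of_monic _ _ fun i _ => monic_X_sub_C _]
    simp
  refine eq_of_degree_sub_lt_of_eval_index_eq (v := fun i : Fin (p - 1) => vRoot ζ (i + 1))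
    Finset.univ (vRoot_injOn hζ).injOn ?_ ?_
  · rw [Finset.card_univ, Fintype.card_fin, degree_lt_iff_coeff_zero]
    intro m hm
    rw [coeff_sub, coeff_sub, coeff_C_mul, coeff_X_add_one_pow, coeff_X_pow]
    rcases Nat.lt_or_ge m p with h1 | h1
    · have hm' : m = p - 1 := by omega
      subst hm'
      have : G.coeff (p - 1) = 1 := by
        rw [← hGdeg]; exact hGmonic.coeff_natDegree
      rw [this, if_neg (by omega), Nat.choose_symm_of_eq_add (by omega : p = (p - 1) + 1),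
        Nat.choose_one_right]
      ring
    · rw [coeff_eq_zero_of_natDegree_lt (by omega : G.natDegree < m)]
      rcases Nat.eq_or_lt_of_le h1 with h2 | h2
      · subst h2
        simp
      · rw [if_neg (by omega), Nat.choose_eq_zero_of_lt h2]
        simp
  · intro i _
    have hi : (i : ℕ) + 1 < p := by have := i.2; omega
    have hk := pow_ne_one_of_lt hζ (Nat.succ_pos i) hi
    rw [eval_sub, eval_pow, eval_add, eval_X, eval_one, eval_pow, eval_X,
      vRoot_add_one_pow hζ.pow_eq_one hk, sub_self, eval_mul, eval_C, hG, eval_prod,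
      Finset.prod_eq_zero (Finset.mem_univ i) (by simp), mul_zero]

/-- Vieta: the elementary symmetric functions of the `v_k`. -/
theorem esymm_vRoot (hp : 2 ≤ p) (hζ : IsPrimitiveRoot ζ p) {j : ℕ} (hj : j ≤ p - 1) :
    (p : κ) * (Finset.univ.val.map fun i : Fin (p - 1) => vRoot ζ (i + 1)).esymm j =
      (-1) ^ j * (p.choose (j + 1) : κ) := by
  classical
  have h := add_one_pow_sub_pow_eq hp hζ
  have hprod : (∏ i : Fin (p - 1), (X - C (vRoot ζ (i + 1))) : κ[X]) =
      ((Finset.univ.val.map fun i : Fin (p - 1) => vRoot ζ (i + 1)).map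
        fun t => X - C t).prod := by
    rw [Multiset.map_map]
    rfl
  have hcard : Multiset.card (Finset.univ.val.map fun i : Fin (p - 1) => vRoot ζ (i + 1))
      = p - 1 := by simp
  have hc : (((X : κ[X]) + 1) ^ p - X ^ p).coeff (p - 1 - j) =
      (C (p : κ) * ∏ i : Fin (p - 1), (X - C (vRoot ζ (i + 1)))).coeff (p - 1 - j) := by
    rw [h]
  rw [coeff_sub, coeff_C_mul, coeff_X_add_one_pow, coeff_X_pow, if_neg (by omega), hprod,
    Multiset.prod_X_sub_C_coeff _ (by rw [hcard]; omega), hcard, sub_zero,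
    Nat.sub_sub_self hj] at hc
  have hch : p.choose (p - 1 - j) = p.choose (j + 1) :=
    Nat.choose_symm_of_eq_add (by omega)
  rw [hch] at hc
  have hsq : ((-1 : κ) ^ j) * (-1) ^ j = 1 := by
    rw [← mul_pow]; simp
  calc (p : κ) * (Finset.univ.val.map fun i : Fin (p - 1) => vRoot ζ (i + 1)).esymm j
      = (-1) ^ j * ((p : κ) * ((-1) ^ j *
          (Finset.univ.val.map fun i : Fin (p - 1) => vRoot ζ (i + 1)).esymm j)) := by
        linear_combination (-(p : κ) *
          (Finset.univ.val.map fun i : Fin (p - 1) => vRoot ζ (i + 1)).esymm j) * hsq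
    _ = (-1) ^ j * (p.choose (j + 1) : κ) := by rw [← hc]

end RootPoly


section RootSum

variable {κ : Type*} [Field κ]

lemma choose_cast_identities (p : ℕ) (hp : 5 ≤ p) :
    (2 : κ) * (p.choose 2 : κ) = (p : κ) * (p - 1) ∧
    (6 : κ) * (p.choose 3 : κ) = (p : κ) * (p - 1) * (p - 2) ∧
    (24 : κ) * (p.choose 4 : κ) = (p : κ) * (p - 1) * (p - 2) * (p - 3) ∧
    (120 : κ) * (p.choose 5 : κ) = (p : κ) * (p - 1) * (p - 2) * (p - 3) * (p - 4) := by
  have h2 := Nat.descFactorial_eq_factorial_mul_choose p 2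
  have h3 := Nat.descFactorial_eq_factorial_mul_choose p 3
  have h4 := Nat.descFactorial_eq_factorial_mul_choose p 4
  have h5 := Nat.descFactorial_eq_factorial_mul_choose p 5
  simp only [Nat.descFactorial, Nat.factorial] at h2 h3 h4 h5
  have c2 := congrArg (Nat.cast : ℕ → κ) h2
  have c3 := congrArg (Nat.cast : ℕ → κ) h3
  have c4 := congrArg (Nat.cast : ℕ → κ) h4
  have c5 := congrArg (Nat.cast : ℕ → κ) h5
  push_cast [Nat.cast_sub (by omega : 1 ≤ p), Nat.cast_sub (by omega : 2 ≤ p),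
    Nat.cast_sub (by omega : 3 ≤ p), Nat.cast_sub (by omega : 4 ≤ p)] at c2 c3 c4 c5
  refine ⟨?_, ?_, ?_, ?_⟩
  · linear_combination -c2
  · linear_combination -c3
  · linear_combination -c4
  · linear_combination -c5


variable {ζ : κ} {p : ℕ}

lemma natCast_ne_zero_of_isPrimitiveRoot (hp : 2 ≤ p) (hζ : IsPrimitiveRoot ζ p) :
    (p : κ) ≠ 0 := by
  intro h0
  have h := congrArg (fun q : κ[X] => q.eval 0) (add_one_pow_sub_pow_eq hp hζ)
  simp only [eval_sub, eval_pow, eval_add, eval_X, eval_one, eval_mul, eval_C, h0, zero_mul] at h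
  have hp0 : p ≠ 0 := by omega
  rw [zero_add, one_pow, zero_pow hp0, sub_zero] at h
  exact one_ne_zero h

/-- **The root-of-unity sum.** -/
theorem root_sum (hp : 5 ≤ p) (hζ : IsPrimitiveRoot ζ p)
    (h2 : (2 : κ) ≠ 0) (h3 : (3 : κ) ≠ 0) (h5 : (5 : κ) ≠ 0) :
    120 * ∑ k ∈ Finset.Icc 1 (p - 1),
        (6 * (ζ ^ k / (1 - ζ ^ k) ^ 2) ^ 2 + ζ ^ k / (1 - ζ ^ k) ^ 2) = (p : κ) ^ 4 - 1 := by
  classical
  have hp2 : 2 ≤ p := by omega
  have hpκ := natCast_ne_zero_of_isPrimitiveRoot hp2 hζ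
  -- reindex
  have hre : ∑ k ∈ Finset.Icc 1 (p - 1),
        (6 * (ζ ^ k / (1 - ζ ^ k) ^ 2) ^ 2 + ζ ^ k / (1 - ζ ^ k) ^ 2) =
      ∑ i : Fin (p - 1), (6 * vRoot ζ (i + 1) ^ 4 + 12 * vRoot ζ (i + 1) ^ 3 +
        7 * vRoot ζ (i + 1) ^ 2 + vRoot ζ (i + 1) ^ 1) := by
    rw [Fin.sum_univ_eq_sum_range (fun i => 6 * vRoot ζ (i + 1) ^ 4 + 12 * vRoot ζ (i + 1) ^ 3 +
        7 * vRoot ζ (i + 1) ^ 2 + vRoot ζ (i + 1) ^ 1) (p - 1)]
    refine Finset.sum_nbij' (fun k => k - 1) (fun i => i + 1) ?_ ?_ ?_ ?_ ?_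
    · intro k hk
      rw [Finset.mem_Icc] at hk
      rw [Finset.mem_range]
      omega
    · intro i hi
      rw [Finset.mem_range] at hi
      rw [Finset.mem_Icc]
      omega
    · intro k hk
      rw [Finset.mem_Icc] at hk
      omega
    · intro i _
      omega
    · intro k hk
      rw [Finset.mem_Icc] at hk
      have hk1 : k - 1 + 1 = k := by omega
      rw [hk1, s_eq_vRoot (pow_ne_one_of_lt hζ (by omega) (by omega))]
      ring
  rw [hre]
  simp only [Finset.sum_add_distrib, ← Finset.mul_sum]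
  obtain ⟨n1, n2, n3, n4⟩ := newton_four (fun i : Fin (p - 1) => vRoot ζ (i + 1))
  have e1 := esymm_vRoot hp2 hζ (j := 1) (by omega)
  have e2 := esymm_vRoot hp2 hζ (j := 2) (by omega)
  have e3 := esymm_vRoot hp2 hζ (j := 3) (by omega)
  have e4 := esymm_vRoot hp2 hζ (j := 4) (by omega)
  obtain ⟨c2, c3, c4, c5⟩ := choose_cast_identities (κ := κ) p hp
  set E1 := (Finset.univ.val.map fun i : Fin (p - 1) => vRoot ζ (i + 1)).esymm 1 with hE1
  set E2 := (Finset.univ.val.map fun i : Fin (p - 1) => vRoot ζ (i + 1)).esymm 2 with hE2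
  set E3 := (Finset.univ.val.map fun i : Fin (p - 1) => vRoot ζ (i + 1)).esymm 3 with hE3
  set E4 := (Finset.univ.val.map fun i : Fin (p - 1) => vRoot ζ (i + 1)).esymm 4 with hE4
  set P1 := ∑ i : Fin (p - 1), vRoot ζ (i + 1) ^ 1 with hP1
  set P2 := ∑ i : Fin (p - 1), vRoot ζ (i + 1) ^ 2 with hP2
  set P3 := ∑ i : Fin (p - 1), vRoot ζ (i + 1) ^ 3 with hP3
  set P4 := ∑ i : Fin (p - 1), vRoot ζ (i + 1) ^ 4 with hP4
  have h6 : (6 : κ) ≠ 0 := by
    have : (6 : κ) = 2 * 3 := by norm_num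
    rw [this]; exact mul_ne_zero h2 h3
  have h24 : (24 : κ) ≠ 0 := by
    have : (24 : κ) = 2 * 2 * 2 * 3 := by norm_num
    rw [this]; exact mul_ne_zero (mul_ne_zero (mul_ne_zero h2 h2) h2) h3
  have h120 : (120 : κ) ≠ 0 := by
    have : (120 : κ) = 2 * 2 * 2 * 3 * 5 := by norm_num
    rw [this]; exact mul_ne_zero (mul_ne_zero (mul_ne_zero (mul_ne_zero h2 h2) h2) h3) h5
  have E1v : E1 = -((p : κ) - 1) / 2 := by
    have h : (p : κ) * (2 * E1) = (p : κ) * (-((p : κ) - 1)) := by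
      linear_combination 2 * e1 - c2
    have h' := mul_left_cancel₀ hpκ h
    rw [eq_div_iff h2]
    linear_combination h'
  have E2v : E2 = ((p : κ) - 1) * (p - 2) / 6 := by
    have h : (p : κ) * (6 * E2) = (p : κ) * (((p : κ) - 1) * (p - 2)) := by
      linear_combination 6 * e2 + c3
    have h' := mul_left_cancel₀ hpκ h
    rw [eq_div_iff h6]
    linear_combination h'
  have E3v : E3 = -(((p : κ) - 1) * (p - 2) * (p - 3)) / 24 := by
    have h : (p : κ) * (24 * E3) = (p : κ) * (-(((p : κ) - 1) * (p - 2) * (p - 3))) := by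
      linear_combination 24 * e3 - c4
    have h' := mul_left_cancel₀ hpκ h
    rw [eq_div_iff h24]
    linear_combination h'
  have E4v : E4 = ((p : κ) - 1) * (p - 2) * (p - 3) * (p - 4) / 120 := by
    have h : (p : κ) * (120 * E4) = (p : κ) * (((p : κ) - 1) * (p - 2) * (p - 3) * (p - 4)) := by
      linear_combination 120 * e4 + c5
    have h' := mul_left_cancel₀ hpκ h
    rw [eq_div_iff h120]
    linear_combination h'
  rw [n4, n3, n2, n1, E1v, E2v, E3v, E4v]
  field_simp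
  ring

end RootSum

end Fermat.Agent.S12.H651
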