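import Fermat.Agent.S12.H651.NodalGm
import Fermat.Agent.S12.H651.RootSums
import Fermat.Agent.S15.H542.ModSpec

/-!
# S12 / QUOT-Q3 (helper651), part 3: Vélu's quotient of a nodal cubic by `μ_p`

`W` a Weierstrass cubic over a field `k` with a split node, `Q` a nonsingular point of exact order
`p` (a prime `> 5`).  Then Vélu's curve `H542.veluCurve W Q p` (helper542's definition) has

  `c₄(W') = p⁴ · c₄(W)`                       (`c₄_veluCurve_of_splitNode`).

Also general facts on Vélu's sums for any Weierstrass cubic: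
`c₄_veluCurve : c₄(W') = c₄(W) + 240 t`  and  `two_mul_veluT : 2 t = ∑_{k=1}^{p-1} t₁(x(kQ))`.
-/

set_option autoImplicit false

namespace Fermat.Agent.S12.H651

open WeierstrassCurve WeierstrassCurve.Affine
open Fermat.Agent.S15.H542 (xOf yOf veluT1 veluU1 veluT veluW veluCurve)

variable {k : Type*} [Field k] [DecidableEq k]

section General

variable (W : WeierstrassCurve k)

omit [DecidableEq k] in
lemma xOf_neg (P : W.toAffine.Point) : xOf (-P) = xOf P := by
  rcases P with _ | ⟨x, y, h⟩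
  · rfl
  · rw [Point.neg_some]; rfl

/-- `c₄` of Vélu's curve. -/
theorem c₄_veluCurve (Q : W.toAffine.Point) (p : ℕ) :
    (veluCurve W Q p).c₄ = W.c₄ + 240 * veluT W Q p := by
  simp only [WeierstrassCurve.c₄, WeierstrassCurve.b₂, WeierstrassCurve.b₄, veluCurve]
  ring

/-- The half sum defining Vélu's `t`, doubled, is the sum over all nonzero multiples. -/
theorem two_mul_veluT {Q : W.toAffine.Point} {p : ℕ} (hodd : Odd p) (hQ : p • Q = 0) :
    2 * veluT W Q p = ∑ j ∈ Finset.Icc 1 (p - 1), veluT1 W (xOf (j • Q)) := by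
  obtain ⟨m, rfl⟩ := hodd
  have hm : (2 * m + 1 - 1) / 2 = m := by omega
  unfold veluT
  rw [hm]
  have e1 : Finset.Icc 1 (2 * m + 1 - 1) = Finset.Ico 1 (2 * m + 1) := by
    ext j; simp only [Finset.mem_Icc, Finset.mem_Ico]; omega
  have e2 : Finset.Icc 1 m = Finset.Ico 1 (m + 1) := by
    ext j; simp only [Finset.mem_Icc, Finset.mem_Ico]; omega
  rw [e1, e2, ← Finset.sum_Ico_consecutive _ (by omega : 1 ≤ m + 1) (by omega : m + 1 ≤ 2 * m + 1)]
  have hrefl := Finset.sum_Ico_reflect (fun j => veluT1 W (xOf (j • Q))) 1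
    (by omega : m + 1 ≤ 2 * m + 1 + 1)
  have e3 : 2 * m + 1 + 1 - (m + 1) = m + 1 := by omega
  have e4 : 2 * m + 1 + 1 - 1 = 2 * m + 1 := by omega
  rw [e3, e4] at hrefl
  rw [← hrefl, two_mul]
  congr 1
  refine Finset.sum_congr rfl fun j hj => ?_
  rw [Finset.mem_Ico] at hj
  have hle : j ≤ 2 * m + 1 := by omega
  have : (2 * m + 1 - j) • Q = -(j • Q) := by
    rw [sub_nsmul Q hle, hQ, zero_add]
  rw [this, xOf_neg]

end General

section Nodal

variable {W : WeierstrassCurve k} (N : SplitNode W.toAffine)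

omit [DecidableEq k] in
/-- Vélu's `t₁` in coordinates centred at the node. -/
lemma veluT1_eq (x : k) :
    veluT1 W x = 6 * (x - N.x₀) ^ 2 + (N.α - N.β) ^ 2 * (x - N.x₀) := by
  unfold veluT1
  simp only [WeierstrassCurve.b₂, WeierstrassCurve.b₄]
  have h1 := N.a₁_eq
  have h2 := N.a₂_eq
  have h3 := N.a₃_eq
  have h4 := N.a₄_eq
  simp only [WeierstrassCurve.toAffine] at h1 h2 h3 h4
  rw [h1, h2, h3, h4]
  ring

omit [DecidableEq k] in
/-- Vélu's `t₁` at a nonzero point, in terms of the multiplicative coordinate. -/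
lemma veluT1_xOf {P : W.toAffine.Point} (hP : P ≠ 0) :
    veluT1 W (xOf P) = ((N.α - N.β) ^ 2) ^ 2 *
      (6 * (N.nodeU P / (1 - N.nodeU P) ^ 2) ^ 2 + N.nodeU P / (1 - N.nodeU P) ^ 2) := by
  rcases P with _ | ⟨x, y, h⟩
  · exact absurd rfl hP
  · have hx := N.x_eq_of_nodeU h
    have hx' : x - N.x₀ = (N.α - N.β) ^ 2 *
        (N.nodeU (Point.some x y h) / (1 - N.nodeU (Point.some x y h)) ^ 2) := by
      rw [mul_div_assoc] at hx
      linear_combination hx
    change veluT1 W x = _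
    rw [veluT1_eq N, hx']
    ring

omit [DecidableEq k] in
/-- `240 ∣ p⁴ - 1` for a prime `p > 5`, in the form needed in characteristic `2, 3, 5`. -/
lemma pow_four_eq_one_of_thirty_eq_zero {p : ℕ} (hp : p.Prime) (hp5 : 5 < p)
    (h30 : (30 : k) = 0) : (p : k) ^ 4 = 1 := by
  have h2 : ¬ 2 ∣ p := fun h => by
    have := (Nat.prime_dvd_prime_iff_eq Nat.prime_two hp).mp h; omega
  have h3 : ¬ 3 ∣ p := fun h => by
    have := (Nat.prime_dvd_prime_iff_eq Nat.prime_three hp).mp h; omega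
  have h5 : ¬ 5 ∣ p := fun h => by
    have := (Nat.prime_dvd_prime_iff_eq Nat.prime_five hp).mp h; omega
  have key : ∀ r : ℕ, r < 30 → ¬ 2 ∣ r → ¬ 3 ∣ r → ¬ 5 ∣ r → r ^ 4 % 30 = 1 := by decide
  have hr := key (p % 30) (Nat.mod_lt _ (by norm_num))
    (fun h => h2 ((Nat.dvd_mod_iff (by norm_num : 2 ∣ 30)).mp h))
    (fun h => h3 ((Nat.dvd_mod_iff (by norm_num : 3 ∣ 30)).mp h))
    (fun h => h5 ((Nat.dvd_mod_iff (by norm_num : 5 ∣ 30)).mp h))
  have hmod : p ^ 4 % 30 = 1 := by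
    rw [Nat.pow_mod, hr]
  have hdecomp : p ^ 4 = 30 * (p ^ 4 / 30) + 1 := by
    have := Nat.div_add_mod (p ^ 4) 30
    omega
  have hc := congrArg (Nat.cast : ℕ → k) hdecomp
  push_cast at hc
  rw [hc, h30, zero_mul, zero_add]

/-- In characteristic `2`, `3`, `5` Vélu's curve has `c₄' = c₄ = p⁴ c₄` (any cubic). -/
theorem c₄_veluCurve_of_thirty_eq_zero (W : WeierstrassCurve k) {p : ℕ} (hp : p.Prime)
    (hp5 : 5 < p) (Q : W.toAffine.Point) (h30 : (30 : k) = 0) :
    (veluCurve W Q p).c₄ = (p : k) ^ 4 * W.c₄ := by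
  rw [c₄_veluCurve]
  have h240 : (240 : k) = 0 := by
    have : (240 : k) = 8 * 30 := by norm_num
    rw [this, h30, mul_zero]
  rw [h240, zero_mul, add_zero, pow_four_eq_one_of_thirty_eq_zero hp hp5 h30, one_mul]

/-- **Vélu's quotient of a split nodal cubic by a subgroup of prime order `p > 5` multiplies `c₄`
by `p⁴`.** -/
theorem c₄_veluCurve_of_splitNode (N : SplitNode W.toAffine) {p : ℕ} (hp : p.Prime)
    (hp5 : 5 < p) {Q : W.toAffine.Point} (hQ : addOrderOf Q = p) :
    (veluCurve W Q p).c₄ = (p : k) ^ 4 * W.c₄ := by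
  by_cases h30 : (30 : k) = 0
  · exact c₄_veluCurve_of_thirty_eq_zero W hp hp5 Q h30
  · rw [c₄_veluCurve]
    have h2 : (2 : k) ≠ 0 := fun h => h30 (by
      have : (30 : k) = 2 * 15 := by norm_num
      rw [this, h, zero_mul])
    have h3 : (3 : k) ≠ 0 := fun h => h30 (by
      have : (30 : k) = 3 * 10 := by norm_num
      rw [this, h, zero_mul])
    have h5 : (5 : k) ≠ 0 := fun h => h30 (by
      have : (30 : k) = 5 * 6 := by norm_num
      rw [this, h, zero_mul])
    have hpQ : p • Q = 0 := by rw [← hQ]; exact addOrderOf_nsmul_eq_zero Q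
    have hodd : Odd p := hp.odd_of_ne_two (by omega)
    have hQ0 : Q ≠ 0 := by
      rintro rfl
      rw [addOrderOf_zero] at hQ
      exact hp.one_lt.ne hQ
    -- `u` is a primitive `p`-th root of unity
    have hu1 : N.nodeU Q ^ p = 1 := by rw [← N.nodeU_nsmul, hpQ, SplitNode.nodeU_zero]
    have hune : N.nodeU Q ≠ 1 := fun h => hQ0 ((N.nodeU_eq_one_iff Q).mp h)
    have hprim : IsPrimitiveRoot (N.nodeU Q) p := by
      have hord : orderOf (N.nodeU Q) ∣ p := orderOf_dvd_of_pow_eq_one hu1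
      rcases (Nat.dvd_prime hp).mp hord with h | h
      · exact absurd (orderOf_eq_one_iff.mp h) hune
      · rw [← h]; exact IsPrimitiveRoot.orderOf _
    have hsum := root_sum (by omega : 5 ≤ p) hprim h2 h3 h5
    have h2t := two_mul_veluT W hodd hpQ
    have hterm : ∀ j ∈ Finset.Icc 1 (p - 1), veluT1 W (xOf (j • Q)) =
        ((N.α - N.β) ^ 2) ^ 2 * (6 * (N.nodeU Q ^ j / (1 - N.nodeU Q ^ j) ^ 2) ^ 2 +
          N.nodeU Q ^ j / (1 - N.nodeU Q ^ j) ^ 2) := by
      intro j hj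
      rw [Finset.mem_Icc] at hj
      have hj0 : j • Q ≠ 0 := by
        intro h0
        have hd : addOrderOf Q ∣ j := addOrderOf_dvd_of_nsmul_eq_zero h0
        rw [hQ] at hd
        have := Nat.le_of_dvd (by omega) hd
        omega
      rw [veluT1_xOf N hj0, N.nodeU_nsmul]
    rw [Finset.sum_congr rfl hterm, ← Finset.mul_sum] at h2t
    have hc4 : W.c₄ = ((N.α - N.β) ^ 2) ^ 2 := N.c₄_eq
    rw [hc4]
    linear_combination 120 * h2t + ((N.α - N.β) ^ 2) ^ 2 * hsum

omit [DecidableEq k] in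
/-- A split node from a square root of the discriminant `b₂ + 12 x₀` of the tangent cone
(characteristic `≠ 2`). -/
noncomputable def SplitNode.ofSqrt (hc : W.c₄ ≠ 0) (hΔ : W.Δ = 0) (h2 : (2 : k) ≠ 0) {d : k}
    (hd : d ^ 2 = W.b₂ + 12 * Fermat.Agent.S15.H242.singX W.toAffine) :
    SplitNode W.toAffine where
  x₀ := Fermat.Agent.S15.H242.singX W.toAffine
  y₀ := Fermat.Agent.S15.H242.singY W.toAffine
  α := (-W.a₁ + d) / 2
  β := (-W.a₁ - d) / 2
  hF := Fermat.Agent.S15.H242.sing_F W.toAffine hc hΔ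
  hFx := Fermat.Agent.S15.H242.sing_Fx W.toAffine hc hΔ
  hFy := Fermat.Agent.S15.H242.sing_Fy W.toAffine hc
  hsum := by
    show (-W.a₁ + d) / 2 + (-W.a₁ - d) / 2 = -W.a₁
    field_simp
    ring
  hprod := by
    show (-W.a₁ + d) / 2 * ((-W.a₁ - d) / 2) =
      -(3 * Fermat.Agent.S15.H242.singX W.toAffine + W.a₂)
    have hb : W.b₂ = W.a₁ ^ 2 + 4 * W.a₂ := rfl
    rw [hb] at hd
    field_simp
    linear_combination -hd
  hne := by
    intro h
    have hd0 : d = 0 := by
      have h' : (-W.a₁ + d) = (-W.a₁ - d) := by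
        have := congrArg (fun z => z * 2) h
        simpa [div_mul_cancel₀ _ h2] using this
      have h'' : 2 * d = 0 := by linear_combination h'
      rcases mul_eq_zero.mp h'' with h3 | h3
      · exact absurd h3 h2
      · exact h3
    apply hc
    have hc4 := Fermat.Agent.S15.H242.c₄_eq_of_singular W.toAffine
      (Fermat.Agent.S15.H242.sing_Fx W.toAffine hc hΔ)
      (Fermat.Agent.S15.H242.sing_Fy W.toAffine hc)
    rw [hd0] at hd
    rw [hc4]
    have : W.toAffine.b₂ = W.b₂ := rfl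
    rw [this, ← hd]
    ring

/-- **Vélu's quotient of a nodal cubic (`Δ = 0`, `c₄ ≠ 0`) by a subgroup of prime order `p > 5`
multiplies `c₄` by `p⁴`**, provided the tangent slopes at the node are rational over `k`. -/
theorem c₄_veluCurve_of_nodal (hc : W.c₄ ≠ 0) (hΔ : W.Δ = 0)
    (hsq : ∃ d : k, d ^ 2 = W.b₂ + 12 * Fermat.Agent.S15.H242.singX W.toAffine)
    {p : ℕ} (hp : p.Prime) (hp5 : 5 < p) {Q : W.toAffine.Point} (hQ : addOrderOf Q = p) :
    (veluCurve W Q p).c₄ = (p : k) ^ 4 * W.c₄ := by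
  by_cases h30 : (30 : k) = 0
  · exact c₄_veluCurve_of_thirty_eq_zero W hp hp5 Q h30
  · have h2 : (2 : k) ≠ 0 := fun h => h30 (by
      have : (30 : k) = 2 * 15 := by norm_num
      rw [this, h, zero_mul])
    obtain ⟨d, hd⟩ := hsq
    exact c₄_veluCurve_of_splitNode (SplitNode.ofSqrt hc hΔ h2 hd) hp hp5 hQ

end Nodal

end Fermat.Agent.S12.H651
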