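import Fermat.Agent.S12.H651.NodalVelu
import Fermat.Agent.S15.H242.Psi2

/-!
# S12 / QUOT-Q3 (helper651), part 4: Vélu's model at a place of multiplicative reduction

`A` a valuation subring of `K`, `φ : A →+* κ` with kernel the maximal ideal, `W` a Weierstrass
curve over `K` with coefficients in `A` reducing to `Wκ`, `Q` a point of prime order `p`, `p` a
unit of `A`.  With helper542's `veluT`, `veluW`, `veluCurve`:

* `veluT_mem`, `veluW_mem` : Vélu's sums `t`, `w` are integral (`∈ A`); hence the coefficients of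
  `veluCurve W Q p` are integral (`veluCurve_isRedOf`);
* `rd_veluT_of_not_inE0` : if `Q ∉ E⁰` then `t ≡ 0` (every `k Q` reduces to a singular point, where
  `6 x² + b₂ x + b₄ = 0`);
* `rd_veluT_of_inE0` : if `Q ∈ E⁰` then `t` reduces to Vélu's `t` of the reduced point;
* `val_c₄_veluCurve` : **if the reduction is nodal (`Δ ≡ 0`, `c₄ ≢ 0`), `p > 5`, then
  `c₄(veluCurve W Q p)` is a unit of `A`** (it is `≡ c₄` or `≡ p⁴ c₄`).
-/

set_option autoImplicit false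

namespace Fermat.Agent.S12.H651

open WeierstrassCurve WeierstrassCurve.Affine
open Fermat.Agent.S05.SameRed (IntegralCoeffs InKer)
open Fermat.Agent.Lib.Red.H290
open Fermat.Agent.S15.H242
open Fermat.Agent.S15.H542 (xOf yOf veluT1 veluU1 veluT veluW veluCurve)

section general

variable {K : Type*} [Field K] [DecidableEq K] {κ : Type*} [Field κ] [DecidableEq κ]
variable {A : ValuationSubring K} {φ : A →+* κ} {W : WeierstrassCurve K} {Wκ : WeierstrassCurve κ}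

section invariants

variable (h : IsRedOf A φ W.toAffine Wκ.toAffine)
include h

omit [DecidableEq K] [DecidableEq κ] in
lemma rd_b₂ : W.b₂ ∈ A ∧ rd A φ W.b₂ = Wκ.b₂ := by
  obtain ⟨c₁, c₂, c₃, c₄, c₆, e₁, e₂, e₃, e₄, e₆, f₁, f₂, f₃, f₄, f₆⟩ := h.exists_lift
  simp only [WeierstrassCurve.b₂]
  change (c₁ : K) = W.a₁ at e₁
  change (c₂ : K) = W.a₂ at e₂
  change φ c₁ = Wκ.a₁ at f₁
  change φ c₂ = Wκ.a₂ at f₂
  rw [← e₁, ← e₂, ← f₁, ← f₂]
  have : ((c₁ : K) ^ 2 + 4 * c₂) = ((c₁ ^ 2 + 4 * c₂ : A) : K) := by push_cast; rfl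
  rw [this, rd_coe]
  exact ⟨Subtype.mem _, by simp only [map_add, map_mul, map_pow, map_ofNat]⟩

omit [DecidableEq K] [DecidableEq κ] in
lemma rd_b₄ : W.b₄ ∈ A ∧ rd A φ W.b₄ = Wκ.b₄ := by
  obtain ⟨c₁, c₂, c₃, c₄, c₆, e₁, e₂, e₃, e₄, e₆, f₁, f₂, f₃, f₄, f₆⟩ := h.exists_lift
  simp only [WeierstrassCurve.b₄]
  change (c₁ : K) = W.a₁ at e₁
  change (c₃ : K) = W.a₃ at e₃
  change (c₄ : K) = W.a₄ at e₄
  change φ c₁ = Wκ.a₁ at f₁
  change φ c₃ = Wκ.a₃ at f₃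
  change φ c₄ = Wκ.a₄ at f₄
  rw [← e₁, ← e₃, ← e₄, ← f₁, ← f₃, ← f₄]
  have : (2 * (c₄ : K) + c₁ * c₃) = ((2 * c₄ + c₁ * c₃ : A) : K) := by push_cast; rfl
  rw [this, rd_coe]
  exact ⟨Subtype.mem _, by simp only [map_add, map_mul, map_ofNat]⟩

omit [DecidableEq K] [DecidableEq κ] in
lemma rd_b₆ : W.b₆ ∈ A ∧ rd A φ W.b₆ = Wκ.b₆ := by
  obtain ⟨c₁, c₂, c₃, c₄, c₆, e₁, e₂, e₃, e₄, e₆, f₁, f₂, f₃, f₄, f₆⟩ := h.exists_lift
  simp only [WeierstrassCurve.b₆]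
  change (c₃ : K) = W.a₃ at e₃
  change (c₆ : K) = W.a₆ at e₆
  change φ c₃ = Wκ.a₃ at f₃
  change φ c₆ = Wκ.a₆ at f₆
  rw [← e₃, ← e₆, ← f₃, ← f₆]
  have : ((c₃ : K) ^ 2 + 4 * c₆) = ((c₃ ^ 2 + 4 * c₆ : A) : K) := by push_cast; rfl
  rw [this, rd_coe]
  exact ⟨Subtype.mem _, by simp only [map_add, map_mul, map_pow, map_ofNat]⟩

omit [DecidableEq K] [DecidableEq κ] in
lemma rd_c₄ : W.c₄ ∈ A ∧ rd A φ W.c₄ = Wκ.c₄ := by
  obtain ⟨m2, r2⟩ := rd_b₂ h
  obtain ⟨m4, r4⟩ := rd_b₄ h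
  simp only [WeierstrassCurve.c₄]
  have m24 : (24 : K) ∈ A := ofNat_mem A 24
  refine ⟨A.sub_mem (pow_mem m2 2) (A.mul_mem _ _ m24 m4), ?_⟩
  rw [rd_sub (pow_mem m2 2) (A.mul_mem _ _ m24 m4), rd_pow m2, rd_mul m24 m4, r2, r4, rd_ofNat]

omit [DecidableEq K] [DecidableEq κ] in
/-- Vélu's `t₁` of an integral `x`. -/
lemma rd_veluT1 {x : K} (hx : x ∈ A) :
    veluT1 W x ∈ A ∧ rd A φ (veluT1 W x) = veluT1 Wκ (rd A φ x) := by
  obtain ⟨m2, r2⟩ := rd_b₂ h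
  obtain ⟨m4, r4⟩ := rd_b₄ h
  unfold veluT1
  have m6 : (6 : K) ∈ A := ofNat_mem A 6
  have hA1 : 6 * x ^ 2 ∈ A := A.mul_mem _ _ m6 (pow_mem hx 2)
  have hA2 : W.b₂ * x ∈ A := A.mul_mem _ _ m2 hx
  refine ⟨A.add_mem _ _ (A.add_mem _ _ hA1 hA2) m4, ?_⟩
  rw [rd_add (A.add_mem _ _ hA1 hA2) m4, rd_add hA1 hA2, rd_mul m6 (pow_mem hx 2), rd_pow hx,
    rd_mul m2 hx, r2, r4, rd_ofNat]

omit [DecidableEq K] [DecidableEq κ] in
/-- Vélu's `u₁` of an integral `x`. -/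
lemma rd_veluU1 {x : K} (hx : x ∈ A) :
    veluU1 W x ∈ A ∧ rd A φ (veluU1 W x) = veluU1 Wκ (rd A φ x) := by
  obtain ⟨m2, r2⟩ := rd_b₂ h
  obtain ⟨m4, r4⟩ := rd_b₄ h
  obtain ⟨m6, r6⟩ := rd_b₆ h
  unfold veluU1
  have n4 : (4 : K) ∈ A := ofNat_mem A 4
  have n2 : (2 : K) ∈ A := ofNat_mem A 2
  have hA1 : 4 * x ^ 3 ∈ A := A.mul_mem _ _ n4 (pow_mem hx 3)
  have hA2 : W.b₂ * x ^ 2 ∈ A := A.mul_mem _ _ m2 (pow_mem hx 2)
  have hA3 : 2 * W.b₄ * x ∈ A := A.mul_mem _ _ (A.mul_mem _ _ n2 m4) hx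
  refine ⟨A.add_mem _ _ (A.add_mem _ _ (A.add_mem _ _ hA1 hA2) hA3) m6, ?_⟩
  rw [rd_add (A.add_mem _ _ (A.add_mem _ _ hA1 hA2) hA3) m6, rd_add (A.add_mem _ _ hA1 hA2) hA3,
    rd_add hA1 hA2, rd_mul n4 (pow_mem hx 3), rd_pow hx, rd_mul m2 (pow_mem hx 2), rd_pow hx,
    rd_mul (A.mul_mem _ _ n2 m4) hx, rd_mul n2 m4, r2, r4, r6, rd_ofNat, rd_ofNat]

end invariants

omit [DecidableEq K] [DecidableEq κ] in
/-- At a singular point of a cubic, Vélu's `t₁` vanishes. -/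
lemma veluT1_eq_zero_of_singular {x y : κ} (he : Wκ.toAffine.Equation x y)
    (hs : ¬ Wκ.toAffine.Nonsingular x y) : veluT1 Wκ x = 0 := by
  rw [Affine.nonsingular_iff] at hs
  push Not at hs
  obtain ⟨h1, h2⟩ := hs he
  unfold veluT1
  simp only [WeierstrassCurve.b₂, WeierstrassCurve.b₄]
  change Wκ.a₁ * y = 3 * x ^ 2 + 2 * Wκ.a₂ * x + Wκ.a₄ at h1
  change y = -y - Wκ.a₁ * x - Wκ.a₃ at h2
  linear_combination -2 * h1 + Wκ.a₁ * h2

section points

variable (h : IsRedOf A φ W.toAffine Wκ.toAffine)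
include h

omit [DecidableEq κ] in
/-- The nonzero multiples of a point of prime order `p` (a unit of `A`) are integral. -/
lemma xOf_nsmul_mem {p : ℕ} (_hp : p.Prime) (hv : A.valuation (p : K) = 1)
    {Q : W.toAffine.Point} (hord : addOrderOf Q = p) (j : ℕ) : xOf (j • Q) ∈ A := by
  rcases hj : j • Q with _ | ⟨x, y, hxy⟩
  · exact A.zero_mem
  · change x ∈ A
    by_contra hx
    have hk : InKer W.toAffine A.valuation (j • Q) := by
      rw [hj]; exact not_mem_iff_one_lt.mp hx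
    have hpj : p • (j • Q) = 0 := by
      rw [smul_comm, ← hord, addOrderOf_nsmul_eq_zero, smul_zero]
    have h0 := Fermat.Agent.S05.C1b.eq_zero_of_inKer_of_nsmul_eq_zero h.integralCoeffs p hv
      (j • Q) hk hpj
    rw [hj] at h0
    exact Point.some_ne_zero _ h0

omit [DecidableEq κ] in
/-- Vélu's `t` is integral. -/
theorem veluT_mem {p : ℕ} (hp : p.Prime) (hv : A.valuation (p : K) = 1)
    {Q : W.toAffine.Point} (hord : addOrderOf Q = p) : veluT W Q p ∈ A := by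
  unfold veluT
  exact sum_mem fun j _ => (rd_veluT1 h (xOf_nsmul_mem h hp hv hord j)).1

omit [DecidableEq κ] in
/-- Vélu's `w` is integral. -/
theorem veluW_mem {p : ℕ} (hp : p.Prime) (hv : A.valuation (p : K) = 1)
    {Q : W.toAffine.Point} (hord : addOrderOf Q = p) : veluW W Q p ∈ A := by
  unfold veluW
  refine sum_mem fun j _ => ?_
  have hx := xOf_nsmul_mem h hp hv hord j
  exact A.add_mem _ _ (rd_veluU1 h hx).1 (A.mul_mem _ _ hx (rd_veluT1 h hx).1)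

omit [DecidableEq κ] in
/-- `c₄` of Vélu's curve is integral. -/
theorem c₄_veluCurve_mem {p : ℕ} (hp : p.Prime) (hv : A.valuation (p : K) = 1)
    {Q : W.toAffine.Point} (hord : addOrderOf Q = p) : (veluCurve W Q p).c₄ ∈ A := by
  rw [c₄_veluCurve]
  exact A.add_mem _ _ (rd_c₄ h).1 (A.mul_mem _ _ (ofNat_mem A 240) (veluT_mem h hp hv hord))

omit [DecidableEq κ] in
/-- The reduction of Vélu's `t`, termwise. -/
lemma rd_veluT {p : ℕ} (hp : p.Prime) (hv : A.valuation (p : K) = 1)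
    {Q : W.toAffine.Point} (hord : addOrderOf Q = p) :
    rd A φ (veluT W Q p) =
      ∑ j ∈ Finset.Icc 1 ((p - 1) / 2), veluT1 Wκ (rd A φ (xOf (j • Q))) := by
  unfold veluT
  have key : ∀ s : Finset ℕ, rd A φ (∑ j ∈ s, veluT1 W (xOf (j • Q))) =
      ∑ j ∈ s, veluT1 Wκ (rd A φ (xOf (j • Q))) := by
    intro s
    induction s using Finset.induction_on with
    | empty => simp
    | insert a s ha ih =>
      rw [Finset.sum_insert ha, Finset.sum_insert ha,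
        rd_add (rd_veluT1 h (xOf_nsmul_mem h hp hv hord a)).1
          (sum_mem fun j _ => (rd_veluT1 h (xOf_nsmul_mem h hp hv hord j)).1),
        ih, (rd_veluT1 h (xOf_nsmul_mem h hp hv hord a)).2]
  exact key _

variable (hφ : KerMax A φ)
include hφ

/-- **`Q ∉ E⁰`**: Vélu's `t` reduces to `0`. -/
theorem rd_veluT_of_not_inE0 {p : ℕ} (hp : p.Prime) (hv : A.valuation (p : K) = 1)
    {Q : W.toAffine.Point} (hord : addOrderOf Q = p)
    (hQ : ¬ InE0 A φ Wκ.toAffine Q) : rd A φ (veluT W Q p) = 0 := by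
  rw [rd_veluT h hp hv hord]
  refine Finset.sum_eq_zero fun j hj => ?_
  rw [Finset.mem_Icc] at hj
  have hjp : ¬ p ∣ j := by
    intro hd
    have := Nat.le_of_dvd (by omega) hd
    have : (p - 1) / 2 < p := by
      have := hp.one_lt
      omega
    omega
  -- `j • Q ∉ E⁰`
  have hpQ : p • Q = 0 := by rw [← hord]; exact addOrderOf_nsmul_eq_zero Q
  have hjQ : ¬ InE0 A φ Wκ.toAffine (j • Q) := not_inE0_nsmul h hφ hp hQ hpQ hjp
  have hx := xOf_nsmul_mem h hp hv hord j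
  rcases hjq : j • Q with _ | ⟨x, y, hxy⟩
  · rw [hjq] at hjQ
    exact absurd inE0_zero hjQ
  · rw [hjq] at hjQ hx
    change x ∈ A at hx
    change veluT1 Wκ (rd A φ x) = 0
    have hy := y_mem_of_x_mem h hxy.1 hx
    have he := rd_equation h hx hy hxy.1
    exact veluT1_eq_zero_of_singular (Wκ := Wκ) he fun hns => hjQ fun _ => hns

/-- **`Q ∈ E⁰`**: Vélu's `t` reduces to Vélu's `t` of the reduced point. -/
theorem rd_veluT_of_inE0 {p : ℕ} (hp : p.Prime) (hv : A.valuation (p : K) = 1)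
    {Q : W.toAffine.Point} (hord : addOrderOf Q = p)
    (hQ : InE0 A φ Wκ.toAffine Q) :
    rd A φ (veluT W Q p) = veluT Wκ (red0 A φ Wκ.toAffine Q) p := by
  rw [rd_veluT h hp hv hord]
  unfold veluT
  refine Finset.sum_congr rfl fun j _ => ?_
  congr 1
  rw [← red0_nsmul h hφ hQ j]
  have hin := inE0_nsmul h hφ hQ j
  have hx := xOf_nsmul_mem h hp hv hord j
  rcases hjq : j • Q with _ | ⟨x, y, hxy⟩
  · change rd A φ 0 = _
    rw [rd_zero]
    rfl
  · rw [hjq] at hin hx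
    change x ∈ A at hx
    rw [red0_some_of_mem hxy hx (hin hx)]
    rfl

/-- **Vélu's model at a place of multiplicative reduction**: `c₄` of Vélu's curve is a unit.
`hsq`: the base field has square roots (e.g. it is algebraically closed). -/
theorem val_c₄_veluCurve (hsq : ∀ a : K, ∃ b : K, b ^ 2 = a)
    {p : ℕ} (hp : p.Prime) (hp5 : 5 < p) (hv : A.valuation (p : K) = 1)
    {Q : W.toAffine.Point} (hord : addOrderOf Q = p)
    (hΔ : Wκ.Δ = 0) (hc : Wκ.c₄ ≠ 0) :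
    A.valuation (veluCurve W Q p).c₄ = 1 := by
  have hmem := c₄_veluCurve_mem h hp hv hord
  rw [← rd_ne_zero_iff hφ hmem]
  obtain ⟨mc, rc⟩ := rd_c₄ h
  have htm := veluT_mem h hp hv hord
  have hrd : rd A φ (veluCurve W Q p).c₄ = Wκ.c₄ + 240 * rd A φ (veluT W Q p) := by
    rw [c₄_veluCurve, rd_add mc (A.mul_mem _ _ (ofNat_mem A 240) htm),
      rd_mul (ofNat_mem A 240) htm, rc, rd_ofNat]
  rw [hrd]
  by_cases hQ : InE0 A φ Wκ.toAffine Q
  · rw [rd_veluT_of_inE0 h hφ hp hv hord hQ, ← c₄_veluCurve]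
    -- the tangent slopes are rational: lift the discriminant and take a square root
    have hcv : A.valuation W.c₄ = 1 := (rd_ne_zero_iff hφ mc).mp (by rw [rc]; exact hc)
    obtain ⟨m2, r2⟩ := rd_b₂ h
    obtain ⟨m4, r4⟩ := rd_b₄ h
    obtain ⟨m6, r6⟩ := rd_b₆ h
    have hnum : 18 * W.b₆ - W.b₂ * W.b₄ ∈ A :=
      A.sub_mem (A.mul_mem _ _ (ofNat_mem A 18) m6) (A.mul_mem _ _ m2 m4)
    have hsx : singX W.toAffine ∈ A := div_mem_of_val_eq_one hnum hcv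
    have hrsx : rd A φ (singX W.toAffine) = singX Wκ.toAffine := by
      unfold singX
      change rd A φ ((18 * W.b₆ - W.b₂ * W.b₄) / W.c₄) = (18 * Wκ.b₆ - Wκ.b₂ * Wκ.b₄) / Wκ.c₄
      rw [rd_div hnum hcv, rd_sub (A.mul_mem _ _ (ofNat_mem A 18) m6) (A.mul_mem _ _ m2 m4),
        rd_mul (ofNat_mem A 18) m6, rd_mul m2 m4, r2, r4, r6, rc, rd_ofNat]
    have hD : W.b₂ + 12 * singX W.toAffine ∈ A :=
      A.add_mem _ _ m2 (A.mul_mem _ _ (ofNat_mem A 12) hsx)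
    obtain ⟨b, hb⟩ := hsq (W.b₂ + 12 * singX W.toAffine)
    have hbA : b ∈ A := by
      apply mem_of_val_le
      have h1 : A.valuation b ^ 2 ≤ 1 := by
        rw [← map_pow, hb]; exact val_le_of_mem hD
      by_contra hlt
      push Not at hlt
      have : 1 < A.valuation b ^ 2 := one_lt_pow₀ hlt (by norm_num)
      exact absurd h1 (not_le.mpr this)
    have hd : (rd A φ b) ^ 2 = Wκ.b₂ + 12 * singX Wκ.toAffine := by
      rw [← rd_pow hbA, hb, rd_add m2 (A.mul_mem _ _ (ofNat_mem A 12) hsx),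
        rd_mul (ofNat_mem A 12) hsx, r2, hrsx, rd_ofNat]
    have hordκ := addOrderOf_red0 h hφ hp hv hQ hord
    rw [c₄_veluCurve_of_nodal hc hΔ ⟨_, hd⟩ hp hp5 hordκ]
    have hpκ : (p : κ) ≠ 0 := by
      have := (rd_ne_zero_iff hφ (natCast_mem A p)).mpr hv
      rwa [rd_natCast] at this
    exact mul_ne_zero (pow_ne_zero _ hpκ) hc
  · rw [rd_veluT_of_not_inE0 h hφ hp hv hord hQ, mul_zero, add_zero]
    exact hc

end points

end general

end Fermat.Agent.S12.H651
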